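import Mathlib
import Fermat.Prelude.Def_ModularCurve_LaurentCoeff
import Fermat.Agent.Jac.DescentLaurent

/-!
# MOONSHOT S19, node (G0-3) "transfer", brick (T1): descent of the constants in the Laurent model

`ι₀ : K →+* L` a homomorphism of fields of characteristic zero, `F₀ ⊆ ℚ((q))`.  An element of
`laurentBaseChange L F₀` all of whose coefficients are in `ι₀ K` comes from
`laurentBaseChange K F₀`:

* `mem_laurentBaseChange_of_coeffMap_mem` : `coeffMap ι₀ x₀ ∈ laurentBaseChange L F₀ →
  x₀ ∈ laurentBaseChange K F₀`;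
* `mem_range_bcHom_iff` : `x ∈ range (bcHom ι₀ F₀) ↔ ∃ x₀ : K((q)), coeffMap ι₀ x₀ = x`.

Proof: write `x · d = n` with `n, d` in the `L`-span of the image of `laurentBaseChange K F₀`
(`exists_mul_eq_of_mem`), and apply coefficientwise a `K`-linear functional `φ : L → K` which does
not kill a chosen nonzero coefficient of `d` (`functional_coeff`).
-/

set_option autoImplicit false

namespace Fermat.Agent.FF2.G0T

open ModularCurve HahnSeries Fermat.Agent.Jac.Descent

variable {K L : Type*} [Field K] [Field L] [Algebra ℚ K] [Algebra ℚ L] (ι₀ : K →+* L)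
  (F₀ : IntermediateField ℚ (LaurentSeries ℚ))

/-- The `L`-subalgebra of `L((q))` generated by the image of `laurentBaseChange K F₀`. -/
noncomputable def imgAlg : Subalgebra L (LaurentSeries L) :=
  Algebra.adjoin L (⇑(coeffMap ι₀) '' (laurentBaseChange K F₀ : Set (LaurentSeries K)))

/-- **Fractions.** Every element of `laurentBaseChange L F₀` is a quotient of two elements of
`imgAlg`. -/
theorem exists_mul_eq_of_mem {x : LaurentSeries L} (hx : x ∈ laurentBaseChange L F₀) :
    ∃ n ∈ imgAlg ι₀ F₀, ∃ d ∈ imgAlg ι₀ F₀, d ≠ 0 ∧ x * d = n := by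
  rw [mem_laurentBaseChange_iff] at hx
  induction hx using Subfield.closure_induction with
  | mem y hy =>
      rcases hy with ⟨a, rfl⟩ | ⟨z, hz, rfl⟩
      · exact ⟨_, Subalgebra.algebraMap_mem _ a, 1, one_mem _, one_ne_zero, mul_one _⟩
      · refine ⟨_, Algebra.subset_adjoin ⟨coeffEmb K z, coeffEmb_mem_laurentBaseChange K hz, ?_⟩,
          1, one_mem _, one_ne_zero, mul_one _⟩
        exact coeffMap_coeffEmb_hom ι₀ z
  | one => exact ⟨1, one_mem _, 1, one_mem _, one_ne_zero, mul_one _⟩
  | add x y _ _ hx hy =>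
      obtain ⟨n, hn, d, hd, hd0, h⟩ := hx
      obtain ⟨n', hn', d', hd', hd0', h'⟩ := hy
      refine ⟨n * d' + n' * d, add_mem (mul_mem hn hd') (mul_mem hn' hd), d * d', mul_mem hd hd',
        mul_ne_zero hd0 hd0', ?_⟩
      rw [← h, ← h']; ring
  | neg x _ hx =>
      obtain ⟨n, hn, d, hd, hd0, h⟩ := hx
      exact ⟨-n, neg_mem hn, d, hd, hd0, by rw [← h]; ring⟩
  | inv x _ hx =>
      obtain ⟨n, hn, d, hd, hd0, h⟩ := hx
      rcases eq_or_ne n 0 with rfl | hn0
      · have hx0 : x = 0 := by
          rcases mul_eq_zero.mp h with h | h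
          · exact h
          · exact absurd h hd0
        exact ⟨0, zero_mem _, 1, one_mem _, one_ne_zero, by rw [hx0, inv_zero, zero_mul]⟩
      · have hx0 : x ≠ 0 := by
          rintro rfl
          rw [zero_mul] at h
          exact hn0 h.symm
        refine ⟨d, hd, n, hn, hn0, ?_⟩
        rw [← h, ← mul_assoc, inv_mul_cancel₀ hx0, one_mul]
  | mul x y _ _ hx hy =>
      obtain ⟨n, hn, d, hd, hd0, h⟩ := hx
      obtain ⟨n', hn', d', hd', hd0', h'⟩ := hy
      refine ⟨n * n', mul_mem hn hn', d * d', mul_mem hd hd', mul_ne_zero hd0 hd0', ?_⟩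
      rw [← h, ← h']; ring

omit [Algebra ℚ L] in
/-- Finite representation of the elements of `imgAlg`. -/
theorem exists_finsupp_of_mem_imgAlg {n : LaurentSeries L} (hn : n ∈ imgAlg ι₀ F₀) :
    ∃ l : LaurentSeries K →₀ L, (∀ f ∈ l.support, f ∈ laurentBaseChange K F₀) ∧
      (l.sum fun f c => algebraMap L (LaurentSeries L) c * coeffMap ι₀ f) = n := by
  have hset : (⇑(coeffMap ι₀) '' (laurentBaseChange K F₀ : Set (LaurentSeries K))) =
      ((Submonoid.map (coeffMap ι₀ : LaurentSeries K →* LaurentSeries L)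
        (laurentBaseChange K F₀).toSubfield.toSubring.toSubmonoid :
          Submonoid (LaurentSeries L)) : Set (LaurentSeries L)) := rfl
  have h1 : n ∈ Subalgebra.toSubmodule (imgAlg ι₀ F₀) := hn
  rw [imgAlg, Algebra.adjoin_eq_span, hset, Submonoid.closure_eq, ← hset,
    Finsupp.mem_span_image_iff_linearCombination] at h1
  obtain ⟨l, hl, rfl⟩ := h1
  refine ⟨l, fun f hf => ?_, ?_⟩
  · exact (Finsupp.mem_supported _ _).mp hl hf
  · rw [Finsupp.linearCombination_apply]
    simp only [Algebra.smul_def]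

variable {ι₀}

omit [Algebra ℚ K] [Algebra ℚ L] in
/-- **The functional trick.** A map `φ : L →+ K` which is `K`-linear along `ι₀`, applied
coefficientwise, sends `coeffMap u · ∑ c · coeffMap f` to `u · ∑ φ c · f`. -/
theorem functional_coeff (φ : L →+ K) (hφ : ∀ (a : K) (c : L), φ (c * ι₀ a) = φ c * a)
    (l : LaurentSeries K →₀ L) (u : LaurentSeries K) (k : ℤ) :
    φ ((coeffMap ι₀ u *
        l.sum fun f c => algebraMap L (LaurentSeries L) c * coeffMap ι₀ f).coeff k) =
      (u * l.sum fun f c => algebraMap K (LaurentSeries K) (φ c) * f).coeff k := by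
  classical
  induction l using Finsupp.induction_linear with
  | zero => simp
  | add l l' hl hl' =>
      rw [Finsupp.sum_add_index' (by intro f; simp) (by intro f c c'; rw [map_add, add_mul]),
        Finsupp.sum_add_index' (by intro f; simp)
          (by intro f c c'; rw [map_add, map_add, add_mul]),
        mul_add, mul_add, coeff_add, coeff_add, map_add, hl, hl']
  | single f c =>
      rw [Finsupp.sum_single_index (by simp), Finsupp.sum_single_index (by simp),
        mul_left_comm, mul_left_comm u, ← map_mul, coeff_algebraMap_mul, coeff_algebraMap_mul,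
        coeffMap_coeff, hφ]

/-- **(T1) Descent of the constants.** -/
theorem mem_laurentBaseChange_of_coeffMap_mem {x₀ : LaurentSeries K}
    (hx : coeffMap ι₀ x₀ ∈ laurentBaseChange L F₀) : x₀ ∈ laurentBaseChange K F₀ := by
  classical
  obtain ⟨n, hn, d, hd, hd0, hmul⟩ := exists_mul_eq_of_mem ι₀ F₀ hx
  obtain ⟨ln, hln, rfl⟩ := exists_finsupp_of_mem_imgAlg ι₀ F₀ hn
  obtain ⟨ld, hld, rfl⟩ := exists_finsupp_of_mem_imgAlg ι₀ F₀ hd
  -- a nonzero coefficient of the denominator
  obtain ⟨k, hk⟩ : ∃ k : ℤ,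
      (ld.sum fun f c => algebraMap L (LaurentSeries L) c * coeffMap ι₀ f).coeff k ≠ 0 := by
    by_contra h
    push Not at h
    exact hd0 (HahnSeries.ext (funext h))
  -- a functional which does not kill it
  let _ : Algebra K L := ι₀.toAlgebra
  obtain ⟨ψ, hψ⟩ : ∃ ψ : Module.Dual K L,
      ψ ((ld.sum fun f c => algebraMap L (LaurentSeries L) c * coeffMap ι₀ f).coeff k) ≠ 0 := by
    by_contra h
    push Not at h
    exact hk ((Module.forall_dual_apply_eq_zero_iff K _).mp h)
  set φ : L →+ K := ψ.toAddMonoidHom with hφdef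
  have hφ : ∀ (a : K) (c : L), φ (c * ι₀ a) = φ c * a := by
    intro a c
    have h1 : c * ι₀ a = a • c := by rw [Algebra.smul_def, mul_comm]; rfl
    rw [h1]
    show ψ (a • c) = ψ c * a
    rw [map_smul, smul_eq_mul, mul_comm]
  have hone : ∀ (l : LaurentSeries K →₀ L) (j : ℤ),
      φ ((l.sum fun f c => algebraMap L (LaurentSeries L) c * coeffMap ι₀ f).coeff j) =
        (l.sum fun f c => algebraMap K (LaurentSeries K) (φ c) * f).coeff j := by
    intro l j
    have := functional_coeff φ hφ l 1 j
    rwa [map_one, one_mul, one_mul] at this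
  -- the denominator over `K`
  have hD0 : (ld.sum fun f c => algebraMap K (LaurentSeries K) (φ c) * f) ≠ 0 := by
    intro h
    apply hψ
    have := hone ld k
    rw [h, coeff_zero] at this
    exact this
  have hmem : ∀ l : LaurentSeries K →₀ L, (∀ f ∈ l.support, f ∈ laurentBaseChange K F₀) →
      (l.sum fun f c => algebraMap K (LaurentSeries K) (φ c) * f) ∈ laurentBaseChange K F₀ := by
    intro l hl
    refine sum_mem fun f hf => ?_
    exact mul_mem ((laurentBaseChange K F₀).algebraMap_mem _) (hl f hf)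
  have hEq : x₀ * (ld.sum fun f c => algebraMap K (LaurentSeries K) (φ c) * f) =
      ln.sum fun f c => algebraMap K (LaurentSeries K) (φ c) * f := by
    ext j
    rw [← functional_coeff φ hφ ld x₀ j, hmul, hone]
  have : x₀ = (ln.sum fun f c => algebraMap K (LaurentSeries K) (φ c) * f) /
      (ld.sum fun f c => algebraMap K (LaurentSeries K) (φ c) * f) := by
    rw [eq_div_iff hD0, hEq]
  rw [this]
  exact div_mem (hmem ln hln) (hmem ld hld)

/-- **(T1), range form.** -/
theorem mem_range_bcHom_iff (x : laurentBaseChange L F₀) :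
    x ∈ Set.range (bcHom ι₀ F₀) ↔
      ∃ x₀ : LaurentSeries K, coeffMap ι₀ x₀ = (x : LaurentSeries L) := by
  constructor
  · rintro ⟨y, rfl⟩
    exact ⟨y, rfl⟩
  · rintro ⟨x₀, hx₀⟩
    have hmem : x₀ ∈ laurentBaseChange K F₀ := by
      apply mem_laurentBaseChange_of_coeffMap_mem (ι₀ := ι₀) (L := L)
      rw [hx₀]
      exact x.2
    exact ⟨⟨x₀, hmem⟩, Subtype.ext hx₀⟩

end Fermat.Agent.FF2.G0T
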