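import Mathlib

/-!
# MOONSHOT S19, node (G0-3) "transfer", brick (T2a): `m`-th roots of power series descend

`ι₀ : K →+* L` a homomorphism of fields, `m` invertible in `L`.  If `w : L⟦X⟧` has nonzero constant
coefficient in `ι₀ K` and `w ^ m` has all its coefficients in `ι₀ K`, then `w` has all its
coefficients in `ι₀ K` (`coeff_mem_range_of_pow_eq`, `exists_map_eq_of_pow_eq`).

No existence of roots is used: the `n`-th coefficient of `w ^ m - P ^ m`, `P` the truncation of `w`
below `n`, is `m w₀^(m-1) wₙ` by the geometric sum formula.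
-/

set_option autoImplicit false

namespace Fermat.Agent.FF2.G0T

open PowerSeries

variable {K L : Type*} [Field K] [Field L] (ι₀ : K →+* L)

/-- If `w ^ m` has coefficients in `ι₀ K`, the constant coefficient of `w` is nonzero and in
`ι₀ K`, and `m` is invertible, then all coefficients of `w` are in `ι₀ K`. -/
theorem coeff_mem_range_of_pow_eq {m : ℕ} (hm : (m : L) ≠ 0) (w : L⟦X⟧) (y : K⟦X⟧)
    (hw : w ^ m = PowerSeries.map ι₀ y) (h0 : constantCoeff w ≠ 0)
    (h0' : constantCoeff w ∈ Set.range ι₀) :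
    ∀ n, coeff n w ∈ Set.range ι₀ := by
  intro n
  induction n using Nat.strong_induction_on with
  | _ n ih =>
  rcases Nat.eq_zero_or_pos n with rfl | hn
  · rwa [coeff_zero_eq_constantCoeff_apply]
  choose a ha using ih
  -- the truncation of `w` below `n`, over `K`
  set P0 : K⟦X⟧ := PowerSeries.mk fun k => if h : k < n then a k h else 0 with hP0
  set P : L⟦X⟧ := PowerSeries.map ι₀ P0 with hP
  have hPk : ∀ k, k < n → coeff k P = coeff k w := by
    intro k hk
    rw [hP, coeff_map, hP0, coeff_mk, dif_pos hk, ha k hk]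
  have hPn : coeff n P = 0 := by
    rw [hP, coeff_map, hP0, coeff_mk, dif_neg (lt_irrefl n), map_zero]
  have hdvd : (X : L⟦X⟧) ^ n ∣ w - P := by
    rw [X_pow_dvd_iff]
    intro k hk
    rw [map_sub, hPk k hk, sub_self]
  obtain ⟨t, ht⟩ := hdvd
  have ht0 : constantCoeff t = coeff n w := by
    have h1 : coeff n (w - P) = coeff n ((X : L⟦X⟧) ^ n * t) := by rw [ht]
    rw [map_sub, hPn, sub_zero] at h1
    rw [h1, ← coeff_zero_eq_constantCoeff_apply]
    have := coeff_X_pow_mul t n 0
    rw [zero_add] at this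
    exact this.symm
  have hP00 : constantCoeff P = constantCoeff w := by
    rw [← coeff_zero_eq_constantCoeff_apply, ← coeff_zero_eq_constantCoeff_apply, hPk 0 hn]
  -- the geometric sum
  set G : L⟦X⟧ := ∑ i ∈ Finset.range m, w ^ i * P ^ (m - 1 - i) with hG
  have hgeom : w ^ m - P ^ m = X ^ n * (G * t) := by
    rw [← (Commute.all w P).geom_sum₂_mul m, ht, ← hG]
    ring
  have hG0 : constantCoeff G = (m : L) * constantCoeff w ^ (m - 1) := by
    rw [hG, map_sum]
    have : ∀ i ∈ Finset.range m,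
        constantCoeff (w ^ i * P ^ (m - 1 - i)) = constantCoeff w ^ (m - 1) := by
      intro i hi
      rw [Finset.mem_range] at hi
      rw [map_mul, map_pow, map_pow, hP00, ← pow_add]
      congr 1
      omega
    rw [Finset.sum_congr rfl this, Finset.sum_const, Finset.card_range, nsmul_eq_mul]
  have hcoeff : coeff n (w ^ m - P ^ m) = (m : L) * constantCoeff w ^ (m - 1) * coeff n w := by
    rw [hgeom]
    have := coeff_X_pow_mul (G * t) n 0
    rw [zero_add] at this
    rw [this, coeff_zero_eq_constantCoeff_apply, map_mul, hG0, ht0]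
  have hPm : P ^ m = PowerSeries.map ι₀ (P0 ^ m) := by rw [map_pow]
  rw [map_sub, hw, hPm, coeff_map, coeff_map, ← map_sub] at hcoeff
  obtain ⟨a0, ha0⟩ := h0'
  have ha00 : a0 ≠ 0 := by
    rintro rfl
    rw [map_zero] at ha0
    exact h0 ha0.symm
  have hmK : (m : K) ≠ 0 := by
    intro h
    apply hm
    rw [← map_natCast ι₀, h, map_zero]
  refine ⟨(coeff n y - coeff n (P0 ^ m)) / ((m : K) * a0 ^ (m - 1)), ?_⟩
  rw [map_div₀, hcoeff, map_mul, map_pow, map_natCast, ha0]
  have : (m : L) * constantCoeff w ^ (m - 1) ≠ 0 := mul_ne_zero hm (pow_ne_zero _ h0)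
  field_simp

/-- Power series form: `w = map ι₀ w₀`. -/
theorem exists_map_eq_of_pow_eq {m : ℕ} (hm : (m : L) ≠ 0) (w : L⟦X⟧) (y : K⟦X⟧)
    (hw : w ^ m = PowerSeries.map ι₀ y) (h0 : constantCoeff w ≠ 0)
    (h0' : constantCoeff w ∈ Set.range ι₀) :
    ∃ w₀ : K⟦X⟧, PowerSeries.map ι₀ w₀ = w := by
  have h := coeff_mem_range_of_pow_eq ι₀ hm w y hw h0 h0'
  choose a ha using h
  refine ⟨PowerSeries.mk a, ?_⟩
  ext n
  rw [coeff_map, coeff_mk, ha]

end Fermat.Agent.FF2.G0T
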