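import Mathlib
import Fermat.Prelude.Def_ModularCurve_LaurentCoeff
import Fermat.Agent.FF2.G0T.PowerRoot

/-!
# MOONSHOT S19, node (G0-3) "transfer", brick (T2): `m`-th roots of Laurent series descend

`ι₀ : K →+* L` a homomorphism of fields, `m` invertible in `L`, and every `m`-th root in `L` of an
element of `ι₀ K` is in `ι₀ K` (e.g. `K` algebraically closed).  If `w ∈ L((q))` and
`w ^ m = coeffMap ι₀ y` with `y ∈ K((q))`, then `w = coeffMap ι₀ w₀` for some `w₀ ∈ K((q))`
(`exists_coeffMap_eq_of_pow_eq`, `exists_coeffMap_eq_of_pow_eq_of_isAlgClosed`).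
-/

set_option autoImplicit false

namespace Fermat.Agent.FF2.G0T

open ModularCurve HahnSeries

variable {K L : Type*} [Field K] [Field L] (ι₀ : K →+* L)

/-- `coeffMap` commutes with the inclusion of power series. -/
theorem coeffMap_ofPowerSeries (p : PowerSeries K) :
    coeffMap ι₀ (ofPowerSeries ℤ K p) = ofPowerSeries ℤ L (PowerSeries.map ι₀ p) := by
  ext n
  rw [coeffMap_coeff, PowerSeries.coeff_coe, PowerSeries.coeff_coe]
  split_ifs
  · exact map_zero _
  · rw [PowerSeries.coeff_map]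

/-- **Descent of `m`-th roots in Laurent series.** -/
theorem exists_coeffMap_eq_of_pow_eq {m : ℕ} (hm : (m : L) ≠ 0)
    (hroot : ∀ (x : L) (a : K), x ^ m = ι₀ a → x ∈ Set.range ι₀)
    (w : LaurentSeries L) (y : LaurentSeries K) (hw : w ^ m = coeffMap ι₀ y) :
    ∃ w₀ : LaurentSeries K, coeffMap ι₀ w₀ = w := by
  rcases eq_or_ne w 0 with rfl | hw0
  · exact ⟨0, map_zero _⟩
  set r : ℤ := w.order with hr
  set wt : PowerSeries L := w.powerSeriesPart with hwt
  set yt : PowerSeries K := PowerSeries.mk fun k : ℕ => y.coeff ((k : ℤ) + (m : ℤ) * r) with hyt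
  have hpart : ofPowerSeries ℤ L wt = single (-r) 1 * w := LaurentSeries.ofPowerSeries_powerSeriesPart w
  have hpow : wt ^ m = PowerSeries.map ι₀ yt := by
    ext k
    rw [← LaurentSeries.coeff_coe_powerSeries, map_pow, hpart, mul_pow, hw, single_pow, one_pow,
      PowerSeries.coeff_map, hyt, PowerSeries.coeff_mk]
    have h1 : ((k : ℕ) : ℤ) = ((k : ℤ) + (m : ℤ) * r) + m • (-r) := by
      rw [smul_neg, nsmul_eq_mul]; ring
    conv_lhs => rw [h1]
    rw [coeff_single_mul_add, one_mul, coeffMap_coeff]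
  have h0 : PowerSeries.constantCoeff wt ≠ 0 := by
    rw [← PowerSeries.coeff_zero_eq_constantCoeff_apply, hwt, LaurentSeries.powerSeriesPart_coeff,
      Nat.cast_zero, add_zero]
    exact fun h => hw0 (coeff_order_eq_zero.mp h)
  have h0' : PowerSeries.constantCoeff wt ∈ Set.range ι₀ := by
    apply hroot _ (PowerSeries.constantCoeff yt)
    rw [← map_pow, hpow, ← PowerSeries.coeff_zero_eq_constantCoeff_apply, PowerSeries.coeff_map,
      PowerSeries.coeff_zero_eq_constantCoeff_apply]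
  obtain ⟨w0, hw0'⟩ := exists_map_eq_of_pow_eq ι₀ hm wt yt hpow h0 h0'
  refine ⟨single r 1 * ofPowerSeries ℤ K w0, ?_⟩
  rw [map_mul, coeffMap_single, map_one, coeffMap_ofPowerSeries, hw0']
  exact LaurentSeries.single_order_mul_powerSeriesPart w

/-- Over an algebraically closed `K`. -/
theorem exists_coeffMap_eq_of_pow_eq_of_isAlgClosed [IsAlgClosed K] {m : ℕ} (hm : (m : L) ≠ 0)
    (w : LaurentSeries L) (y : LaurentSeries K) (hw : w ^ m = coeffMap ι₀ y) :
    ∃ w₀ : LaurentSeries K, coeffMap ι₀ w₀ = w := by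
  refine exists_coeffMap_eq_of_pow_eq ι₀ hm (fun x a hx => ?_) w y hw
  let _ : Algebra K L := ι₀.toAlgebra
  have hm0 : m ≠ 0 := by
    rintro rfl
    exact hm Nat.cast_zero
  have hint : IsIntegral K x := by
    refine ⟨Polynomial.X ^ m - Polynomial.C a, Polynomial.monic_X_pow_sub_C a hm0, ?_⟩
    rw [Polynomial.eval₂_sub, Polynomial.eval₂_pow, Polynomial.eval₂_X, Polynomial.eval₂_C]
    show x ^ m - ι₀ a = 0
    rw [hx, sub_self]
  have hdeg : (minpoly K x).degree = 1 :=
    IsAlgClosed.degree_eq_one_of_irreducible K (minpoly.irreducible hint)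
  obtain ⟨b, hb⟩ := minpoly.mem_range_of_degree_eq_one K x hdeg
  exact ⟨b, hb⟩

end Fermat.Agent.FF2.G0T
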