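import Mathlib
import Fermat.Agent.Jac.DescentLaurentExt
import Fermat.Agent.Jac.DescentRestrict
import Fermat.Agent.FF2.G0T.LaurentRoot
import Fermat.Agent.FF2.G0T.LaurentDescent

/-!
# MOONSHOT S19, node (G0-3) "transfer": from `laurentBaseChange K F₀` to `laurentBaseChange L F₀`

`ι₀ : K →+* L` fields of characteristic zero, `K` algebraically closed (for `ℚ̄ → ℂ`:
`laurentBaseChange ℚ̄ (modularFunctionFieldFull N) = modularFunctionFieldBar N`, so
`Pic0 ℚ̄ (…) = JZero N`).

* (T3) `dvd_ord_bcHom` : if `m ∣ ord_v f` at all places `v` of the small field then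
  `m ∣ ord_w (bcHom f)` at all places `w` of the big field;
* (T4) `exists_bcHom_eq_of_pow_eq` : an `m`-th root in the big field of `bcHom f` comes from the
  small field; `exists_pow_eq_of_bcHom_eq_pow`; `isPrincipal_of_bcHom_eq_pow` : if
  `m • D = div f` and `bcHom f` is an `m`-th power in the big field then `D` is principal.
-/

set_option autoImplicit false

namespace Fermat.Agent.FF2.G0T

open ModularCurve AlgebraicCurve Fermat.Agent.Jac.Descent

variable {K L : Type*} [Field K] [Field L] [Algebra ℚ K] [Algebra ℚ L] (ι₀ : K →+* L)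
  (F₀ : IntermediateField ℚ (LaurentSeries ℚ))

/-- `bcHom` maps constants to constants. -/
theorem bcHom_const (a : K) :
    ∃ b : L, bcHom ι₀ F₀ (algebraMap K (laurentBaseChange K F₀) a) =
      algebraMap L (laurentBaseChange L F₀) b :=
  ⟨ι₀ a, bcHom_algebraMap ι₀ F₀ a⟩

/-- **(T3).** Divisibility of all orders is preserved by the base change of the constants. -/
theorem dvd_ord_bcHom {m : ℤ} (f : laurentBaseChange K F₀)
    (hdiv : ∀ v : Place K (laurentBaseChange K F₀), m ∣ v.ord f)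
    (w : Place L (laurentBaseChange L F₀)) : m ∣ w.ord (bcHom ι₀ F₀ f) := by
  by_cases htop : w.toValuationSubring.comap (bcHom ι₀ F₀) = ⊤
  · rw [ord_map_eq_zero_of_comap_eq_top (bcHom ι₀ F₀) w htop f]
    exact dvd_zero m
  · rw [ord_map_eq (bcHom ι₀ F₀) (bcHom_const ι₀ F₀) w htop f]
    exact Dvd.dvd.mul_left (hdiv _) _

/-- **(T4).** An `m`-th root of `bcHom f` in the big field comes from the small field. -/
theorem exists_bcHom_eq_of_pow_eq [IsAlgClosed K] {m : ℕ} (hm : m ≠ 0)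
    (f : laurentBaseChange K F₀) (w : laurentBaseChange L F₀) (hw : w ^ m = bcHom ι₀ F₀ f) :
    ∃ w₀ : laurentBaseChange K F₀, bcHom ι₀ F₀ w₀ = w := by
  have : CharZero L := algebraRat.charZero L
  have hmL : (m : L) ≠ 0 := Nat.cast_ne_zero.mpr hm
  have h1 : (w : LaurentSeries L) ^ m = coeffMap ι₀ (f : LaurentSeries K) := by
    have := congrArg (fun x : laurentBaseChange L F₀ => (x : LaurentSeries L)) hw
    simpa using this
  obtain ⟨x₀, hx₀⟩ := exists_coeffMap_eq_of_pow_eq_of_isAlgClosed ι₀ hmL _ _ h1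
  exact (mem_range_bcHom_iff (ι₀ := ι₀) (F₀ := F₀) w).mpr ⟨x₀, hx₀⟩

/-- **(T4), root form.** -/
theorem exists_pow_eq_of_bcHom_eq_pow [IsAlgClosed K] {m : ℕ} (hm : m ≠ 0)
    (f : laurentBaseChange K F₀) (w : laurentBaseChange L F₀) (hw : w ^ m = bcHom ι₀ F₀ f) :
    ∃ w₀ : laurentBaseChange K F₀, w₀ ^ m = f ∧ bcHom ι₀ F₀ w₀ = w := by
  obtain ⟨w₀, rfl⟩ := exists_bcHom_eq_of_pow_eq ι₀ F₀ hm f w hw
  refine ⟨w₀, (bcHom ι₀ F₀).injective ?_, rfl⟩
  rw [map_pow, hw]

/-- **(T4), divisor form.** If `m • D = div f` on the small field and `bcHom f` is an `m`-th power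
in the big field, then `D` is principal. -/
theorem isPrincipal_of_bcHom_eq_pow [IsAlgClosed K] {m : ℕ} (hm : m ≠ 0)
    (D : Divisor K (laurentBaseChange K F₀)) (f : laurentBaseChange K F₀) (hf : f ≠ 0)
    (hD : ∀ v : Place K (laurentBaseChange K F₀), (m : ℤ) * D v = v.ord f)
    (w : laurentBaseChange L F₀) (hw : w ^ m = bcHom ι₀ F₀ f) :
    Divisor.IsPrincipal D := by
  obtain ⟨w₀, hw₀, -⟩ := exists_pow_eq_of_bcHom_eq_pow ι₀ F₀ hm f w hw
  have hw₀0 : w₀ ≠ 0 := by
    rintro rfl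
    rw [zero_pow hm] at hw₀
    exact hf hw₀.symm
  refine ⟨w₀, hw₀0, fun v => ?_⟩
  have h1 := hD v
  rw [← hw₀, ← zpow_natCast, v.ord_zpow] at h1
  exact mul_left_cancel₀ (Int.natCast_ne_zero.mpr hm) h1

end Fermat.Agent.FF2.G0T
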